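import Fermat.Agent.S37.Fin.Main
import Fermat.Agent.S37.BR.Fin
import Fermat.Agent.DIV.BC.Abs

/-!
# S37/Fin/Tors : the `p`-power torsion points of `J₀(N)` fixed by `Frob_ℓ^k` form a finite set
-/

set_option autoImplicit false

open AlgebraicCurve ModularCurve
open Fermat.Agent.S24 (Kb FN)
open Fermat.Agent.GES (GQ VN DN Vm rhoV galU)
open Fermat.Agent.S37.BR (IsKum)

namespace Fermat.Agent.S37.Fin

/-- the converse of `IsKum.eq_zero`. -/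
theorem isKum_zero_class {N m : ℕ} [NeZero N] (hm : m ≠ 0) {g : (FN N)ˣ}
    (h : IsKum m (0 : JZero N) g) : Vm.mk (⟨g, h.mem⟩ : DN N m) = 0 := by
  obtain ⟨D, hD0, hD⟩ := h
  obtain ⟨u, hu, hDu⟩ := BR.exists_of_mk_eq_zero D hD0
  have hq : ∀ v : Place Kb (FN N), 0 ≤ v.ord ((g : FN N) / u ^ m) := by
    intro v
    rw [div_eq_mul_inv, Place.ord_mul v g.ne_zero (inv_ne_zero (pow_ne_zero _ hu)), Place.ord_inv,
      Fermat.Agent.S24.ord_pow, hD v, hDu v]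
    simp
  obtain ⟨c, hc⟩ := DIV.BC.mem_range_of_ord_nonneg (Fermat.Agent.S24.isFF1_FN N) hq
  obtain ⟨c', hc'⟩ := IsAlgClosed.exists_pow_nat_eq c (Nat.pos_of_ne_zero hm)
  refine Vm.mk_eq_zero_of_pow_eq hm _ (algebraMap Kb (FN N) c' * u) ?_
  rw [mul_pow, ← map_pow, hc', hc, div_mul_cancel₀ _ (pow_ne_zero _ hu)]

theorem isKum_class_eq {N m : ℕ} [NeZero N] (hm : m ≠ 0) {x : JZero N} {f g : (FN N)ˣ}
    (h : IsKum m x f) (h' : IsKum m x g) :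
    Vm.mk (⟨f, h.mem⟩ : DN N m) = Vm.mk (⟨g, h'.mem⟩ : DN N m) := by
  have h1 := h.div h'
  rw [sub_self] at h1
  have h2 := isKum_zero_class hm h1
  rw [← sub_eq_zero, ← Vm.mk_div]
  exact h2

theorem tors_bound (N ℓ k : ℕ) [NeZero N] (hℓ : ℓ.Prime) (hℓN : ¬ ℓ ∣ N) (hk : 0 < k) :
    ∃ d : ℕ, d ≠ 0 ∧ ∀ (m : ℕ) [NeZero m], ¬ ℓ ∣ N * m →
      ∀ A : ValuationSubring Kb, A.LiesOverPrime ℓ → ∀ s : GQ, A.IsFrobeniusAt s ℓ →
      ∀ x : JZero N, m • x = 0 → s ^ k • x = x → d • x = 0 := by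
  obtain ⟨d, hd, H⟩ := exists_bound N ℓ k hℓ hℓN hk
  refine ⟨d, hd, ?_⟩
  intro m _ hℓm A hA s hs x hx hsx
  obtain ⟨f, hf⟩ := BR.exists_isKum (N := N) (m := m) hx
  have hm : m ≠ 0 := NeZero.ne m
  have h1 : (rhoV N m s ^ k) (Vm.mk (⟨f, hf.mem⟩ : DN N m)) = Vm.mk (⟨f, hf.mem⟩ : DN N m) := by
    rw [← map_pow, GES.rhoV_mk]
    have h2 := hf.gal (s ^ k)
    rw [hsx] at h2
    exact isKum_class_eq hm h2 hf
  have h3 := H m hℓm A hA s hs _ h1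
  have h4 := hf.pow d
  refine h4.eq_zero hm ?_
  rw [← h3, ← Vm.mk_pow]
  rfl

theorem finite_TK (N p ℓ k : ℕ) [NeZero N] (hℓ : ℓ.Prime) (h : ¬ ℓ ∣ N * p) (hk : 0 < k)
    (A : ValuationSubring Kb) (hA : A.LiesOverPrime ℓ) (s : GQ) (hs : A.IsFrobeniusAt s ℓ) :
    {x : JZero N | (∃ n : ℕ, p ^ n • x = 0) ∧ s ^ k • x = x}.Finite := by
  have hℓN : ¬ ℓ ∣ N := fun h' => h (Dvd.dvd.mul_right h' p)
  have hℓp : ¬ ℓ ∣ p := fun h' => h (Dvd.dvd.mul_left h' N)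
  have hp : p ≠ 0 := by
    rintro rfl
    exact hℓp (dvd_zero _)
  obtain ⟨d, hd, H⟩ := tors_bound N ℓ k hℓ hℓN hk
  have : NeZero d := ⟨hd⟩
  refine (BR.finite_tors N d).subset ?_
  rintro x ⟨⟨n, hn⟩, hx⟩
  have : NeZero (p ^ n) := ⟨pow_ne_zero _ hp⟩
  refine H (p ^ n) ?_ A hA s hs x hn hx
  intro h'
  rcases (Nat.Prime.dvd_mul hℓ).1 h' with h1 | h1
  · exact hℓN h1
  · exact hℓp (hℓ.dvd_of_dvd_pow h1)

end Fermat.Agent.S37.Fin
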