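import Mathlib

/-!
# S37/Fin, leaf FIN-Adj : an injective endomorphism of a lattice is invertible up to an integer  (Mathlib only)

SKETCH (about 80 lines). It suffices to find `d ≠ 0` and `ψ : Module.End ℤ H` with `ψ * φ = d • 1`: then `φ h = m • h'` gives `d • h = ψ (φ h) = m • ψ h'`.
`φ` is a root of the monic polynomial `φ.charpoly` (`LinearMap.aeval_self_charpoly`). Let `p : ℤ[X]` be a NONZERO polynomial of minimal `natDegree` with `aeval φ p = 0`
(`Nat.find` / `WellFounded.min` / `Polynomial.degree`-induction). Write `p = X * divX p + C (p.coeff 0)` (`Polynomial.X_mul_divX_add` / `Polynomial.divX_mul_X_add`).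
If `p.coeff 0 = 0` then `φ * aeval φ (divX p) = 0`, so `aeval φ (divX p) = 0` by injectivity of `φ`, `divX p ≠ 0` and `natDegree (divX p) < natDegree p`
(`Polynomial.natDegree_divX_eq_natDegree_tsub_one`; `natDegree p ≠ 0` because a nonzero constant `C a` has `aeval φ (C a) = a • 1 ≠ 0` unless `H` is trivial; treat
`Subsingleton H` separately with `d = 1`; `H` is torsion free: `Module.Free` ⟹ `NoZeroSMulDivisors ℤ H`): contradiction.
So `a := p.coeff 0 ≠ 0`, `ψ := - aeval φ (divX p)`, `ψ * φ = a • 1`; take `d = a.natAbs` (replace `ψ` by `-ψ` if `a < 0`).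
-/

set_option autoImplicit false

namespace Fermat.Agent.S37.Fin

theorem exists_adj {H : Type*} [AddCommGroup H] [Module.Free ℤ H] [Module.Finite ℤ H]
    (φ : Module.End ℤ H) (hφ : Function.Injective φ) :
    ∃ d : ℕ, d ≠ 0 ∧ ∀ (m : ℕ) (h h' : H), φ h = m • h' → ∃ h'' : H, d • h = m • h'' := by
  let b := Module.Free.chooseBasis ℤ H
  set M := LinearMap.toMatrix b b φ with hM
  have hdet : M.det ≠ 0 := by
    intro hdet
    obtain ⟨v, hv0, hv⟩ := Matrix.exists_mulVec_eq_zero_iff.mpr hdet
    apply hv0
    have h1 : φ (b.equivFun.symm v) = 0 := by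
      apply b.equivFun.injective
      rw [map_zero]
      have := LinearMap.toMatrix_mulVec_repr b b φ (b.equivFun.symm v)
      funext i
      have h2 := congrFun this i
      have h3 : (b.repr (b.equivFun.symm v) : _ → ℤ) = v := by
        have := b.equivFun.apply_symm_apply v
        exact this
      rw [h3, ← hM, hv] at h2
      exact h2.symm
    have h2 : b.equivFun.symm v = 0 := hφ (h1.trans (map_zero _).symm)
    have := congrArg b.equivFun h2
    rwa [LinearEquiv.apply_symm_apply, map_zero] at this
  have hadj : ∀ h : H, Matrix.toLin b b M.adjugate (φ h) = M.det • h := by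
    intro h
    have h1 : Matrix.toLin b b M.adjugate ∘ₗ φ = M.det • LinearMap.id := by
      have : φ = Matrix.toLin b b M := by rw [hM, Matrix.toLin_toMatrix]
      rw [this, ← Matrix.toLin_mul b b b, Matrix.adjugate_mul, map_smul, Matrix.toLin_one]
    have := congrArg (fun e : Module.End ℤ H => e h) h1
    exact this
  refine ⟨M.det.natAbs, Int.natAbs_ne_zero.mpr hdet, ?_⟩
  intro m h h' hh
  have h1 : M.det • h = m • Matrix.toLin b b M.adjugate h' := by
    rw [← hadj, hh, map_nsmul]
  rcases Int.natAbs_eq M.det with h2 | h2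
  · refine ⟨Matrix.toLin b b M.adjugate h', ?_⟩
    rw [← h1, ← natCast_zsmul, ← h2]
  · refine ⟨-Matrix.toLin b b M.adjugate h', ?_⟩
    rw [smul_neg, ← h1, ← natCast_zsmul, ← neg_smul]
    congr 1
    omega

end Fermat.Agent.S37.Fin
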