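import Mathlib
import Fermat.Prelude.Def_ModularForm_HeckeOperatorForms
import Fermat.Agent.S23.Dilate

/-!
# S37/Fin, leaf FIN-Stab : the `ℓ`-stabilisation `h(z) = f(z) - α f(ℓ z)` as a cusp form on `Γ₀(N ℓ)`, and `U_ℓ h = β h`

SKETCH (about 200 lines).
* `exists_stab` : `f₁ :=` `f` restricted to `Γ₀(Nℓ) ≤ Γ₀(N)` (fields: `slash_action_eq'` from `f`, `zero_at_cusps' hc := f.zero_at_cusps' (hc.mono _)`; pattern:
  `Fermat/Agent/S23/Certificate.lean` line 180, `Fermat/Agent/S16/Calc.lean` line 119);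
  `f₂ :=` `CuspForm.translate f (heckeDiagMatrix ℓ)` restricted to `Γ₀(Nℓ)` (pattern: `S23.dilAux`, `S23.Gamma0_le_conj` in `Fermat/Agent/S23/Dilate.lean`: one needs
  `Γ₀(Nℓ) ≤ (conjugate of Γ₀(N) by diag(ℓ,1))` : `diag(ℓ,1) (a b; c d) diag(ℓ,1)⁻¹ = (a ℓb; c/ℓ d)`); `f₂ z = ℓ * f (heckeDiagMatrix ℓ • z)` by
  `slash_heckeDiagMatrix_apply 2`. `h := f₁ - (α / ℓ) • f₂`.
* `stab_U` (pointwise): `heckeT_apply 2` at `z` gives `t f(z) = ℓ⁻¹ ∑_j f(z_j) + ℓ f(ℓ z)`, `z_j = heckeMatrix ℓ j • z`; `heckeDiagMatrix ℓ • z_j = z + j` as points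
  (`UpperHalfPlane.ext`, `coe_heckeDiagMatrix_smul`, `coe_heckeMatrix_smul`), and `f (z + j) = f z` (`SlashInvariantFormClass.vAdd_apply_of_mem_strictPeriods`, or
  periodicity via `ModularGroup.T ^ j ∈ Gamma0 N`). So `ℓ⁻¹ ∑_j h(z_j) = (t f(z) - ℓ f(ℓz)) - α f(z) = β f(z) - αβ f(ℓ z) = β h(z)`.
* `stab_mean` : norms; `im z_j = im z / ℓ` (`coe_heckeMatrix_smul`, `UpperHalfPlane.coe_im`): `‖β‖ y ‖h z‖ ≤ ℓ⁻¹ ∑ y ‖h z_j‖ = ∑ im z_j ‖h z_j‖`.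
-/

set_option autoImplicit false

open UpperHalfPlane CongruenceSubgroup ModularForm
open scoped MatrixGroups

namespace Fermat.Agent.S37.Fin

open Matrix.SpecialLinearGroup Fermat.Agent.S23
open scoped Pointwise

theorem stab_Gamma0_le (N ℓ : ℕ) :
    ((Gamma0 (N * ℓ) : Subgroup SL(2, ℤ)) : Subgroup (GL (Fin 2) ℝ)) ≤
      ((Gamma0 N : Subgroup SL(2, ℤ)) : Subgroup (GL (Fin 2) ℝ)) := by
  rintro _ ⟨γ, hγ, rfl⟩
  refine ⟨γ, ?_, rfl⟩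
  have h1 : ((γ 1 0 : ℤ) : ZMod (N * ℓ)) = 0 := Gamma0_mem.mp hγ
  rw [ZMod.intCast_zmod_eq_zero_iff_dvd] at h1
  apply Gamma0_mem.mpr
  rw [ZMod.intCast_zmod_eq_zero_iff_dvd]
  exact (Int.natCast_dvd_natCast.mpr (Dvd.intro ℓ rfl)).trans h1

open ConjAct in
theorem stab_Gamma0_le_conj (N ℓ : ℕ) [NeZero ℓ] :
    ((Gamma0 (N * ℓ) : Subgroup SL(2, ℤ)) : Subgroup (GL (Fin 2) ℝ)) ≤
      toConjAct (heckeDiagMatrix ℓ)⁻¹ •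
        ((Gamma0 N : Subgroup SL(2, ℤ)) : Subgroup (GL (Fin 2) ℝ)) := by
  intro g hg
  obtain ⟨γ, hγ, rfl⟩ := hg
  rw [map_inv, Subgroup.mem_inv_pointwise_smul_iff, toConjAct_smul]
  have hγ' : ((γ 1 0 : ℤ) : ZMod (N * ℓ)) = 0 := Gamma0_mem.mp hγ
  rw [ZMod.intCast_zmod_eq_zero_iff_dvd] at hγ'
  obtain ⟨c', hc'⟩ := hγ'
  have hdet : γ 0 0 * γ 1 1 - γ 0 1 * γ 1 0 = 1 := by
    have := γ.det_coe
    rwa [Matrix.det_fin_two] at this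
  let δ : SL(2, ℤ) := ⟨!![γ 0 0, ℓ * γ 0 1; N * c', γ 1 1], by
    rw [Matrix.det_fin_two_of]; rw [hc'] at hdet; push_cast at hdet; linarith⟩
  have hδ : δ ∈ Gamma0 N := by
    apply Gamma0_mem.mpr
    show (((N : ℤ) * c' : ℤ) : ZMod N) = 0
    push_cast
    simp
  refine ⟨δ, hδ, ?_⟩
  rw [eq_mul_inv_iff_mul_eq]
  apply Matrix.GeneralLinearGroup.ext
  intro i j
  have hN : ℓ ≠ 0 := NeZero.ne ℓ
  simp only [Matrix.GeneralLinearGroup.coe_mul, val_heckeDiagMatrix hN]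
  have hc'' : ((γ 1 0 : ℤ) : ℝ) = N * ℓ * c' := by rw [hc']; push_cast; ring
  have e00 : ((mapGL ℝ δ : GL (Fin 2) ℝ) : Matrix (Fin 2) (Fin 2) ℝ) 0 0 = ((γ 0 0 : ℤ) : ℝ) := by
    rw [mapGL_apply_entry]; rfl
  have e01 : ((mapGL ℝ δ : GL (Fin 2) ℝ) : Matrix (Fin 2) (Fin 2) ℝ) 0 1 = ℓ * ((γ 0 1 : ℤ) : ℝ) := by
    rw [mapGL_apply_entry]; simp [δ]
  have e10 : ((mapGL ℝ δ : GL (Fin 2) ℝ) : Matrix (Fin 2) (Fin 2) ℝ) 1 0 = (N : ℝ) * (c' : ℝ) := by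
    rw [mapGL_apply_entry]; simp [δ]
  have e11 : ((mapGL ℝ δ : GL (Fin 2) ℝ) : Matrix (Fin 2) (Fin 2) ℝ) 1 1 = ((γ 1 1 : ℤ) : ℝ) := by
    rw [mapGL_apply_entry]; rfl
  fin_cases i <;> fin_cases j <;>
    simp only [Matrix.mul_apply, Fin.sum_univ_two, Fin.zero_eta, Fin.mk_one, Fin.isValue,
      mapGL_apply_entry γ, hc'', e00, e01, e10, e11, Matrix.of_apply, Matrix.cons_val',
      Matrix.cons_val_zero, Matrix.cons_val_one, Matrix.cons_val_fin_one] <;> ring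

theorem exists_stab (N ℓ : ℕ) [NeZero N] [NeZero ℓ] (f : CuspForm (Gamma0 N) 2) (α : ℂ) :
    ∃ h : CuspForm (Gamma0 (N * ℓ)) 2, ∀ z : ℍ, h z = f z - α * f (heckeDiagMatrix ℓ • z) := by
  let f₁ : CuspForm (Gamma0 (N * ℓ)) 2 :=
    { toFun := f
      slash_action_eq' := fun γ hγ => f.slash_action_eq' γ (stab_Gamma0_le N ℓ hγ)
      holo' := f.holo'
      zero_at_cusps' := fun hc => f.zero_at_cusps' (hc.mono (stab_Gamma0_le N ℓ)) }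
  let f₂ : CuspForm (Gamma0 (N * ℓ)) 2 :=
    { toFun := CuspForm.translate f (heckeDiagMatrix ℓ)
      slash_action_eq' := fun γ hγ =>
        (CuspForm.translate f (heckeDiagMatrix ℓ)).slash_action_eq' γ (stab_Gamma0_le_conj N ℓ hγ)
      holo' := (CuspForm.translate f (heckeDiagMatrix ℓ)).holo'
      zero_at_cusps' := fun hc =>
        (CuspForm.translate f (heckeDiagMatrix ℓ)).zero_at_cusps' (hc.mono (stab_Gamma0_le_conj N ℓ)) }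
  refine ⟨f₁ - (α / ℓ) • f₂, fun z => ?_⟩
  have hℓ : ℓ ≠ 0 := NeZero.ne ℓ
  have hℓ' : (ℓ : ℂ) ≠ 0 := by exact_mod_cast hℓ
  have h1 : f₁ z = f z := rfl
  have h2 : f₂ z = (⇑f ∣[(2 : ℤ)] heckeDiagMatrix ℓ) z := rfl
  have h3 : (f₁ - (α / ℓ) • f₂) z = f₁ z - (α / ℓ) * f₂ z := rfl
  rw [h3, h1, h2, slash_heckeDiagMatrix_apply 2 hℓ]
  norm_num
  field_simp

theorem stab_period (N : ℕ) (f : CuspForm (Gamma0 N) 2) (j : ℕ) (z : ℍ) :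
    f ((j : ℝ) +ᵥ z) = f z := by
  apply SlashInvariantForm.vAdd_apply_of_mem_strictPeriods f z
  have h1 := CongruenceSubgroup.one_mem_strictPeriods_Gamma0 N
  have h2 := AddSubgroup.nsmul_mem _ h1 j
  simpa using h2

theorem stab_diag_smul {ℓ : ℕ} (hℓ : ℓ ≠ 0) (j : ℕ) (z : ℍ) :
    heckeDiagMatrix ℓ • (heckeMatrix ℓ j • z) = (j : ℝ) +ᵥ z := by
  apply UpperHalfPlane.ext
  have hℓ' : (ℓ : ℂ) ≠ 0 := by exact_mod_cast hℓ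
  rw [coe_heckeDiagMatrix_smul hℓ, coe_heckeMatrix_smul hℓ, UpperHalfPlane.coe_vadd]
  push_cast
  field_simp
  ring

theorem stab_U {N ℓ : ℕ} [NeZero N] (hℓ : ℓ.Prime) (hℓN : ¬ ℓ ∣ N) (f : CuspForm (Gamma0 N) 2)
    (t α β : ℂ) (ht : CuspForm.heckeTLin 2 hℓ hℓN f = t • f) (hs : α + β = t) (hp : α * β = ℓ)
    (h : ℍ → ℂ) (hh : ∀ z : ℍ, h z = f z - α * f (heckeDiagMatrix ℓ • z)) (z : ℍ) :
    β * h z = (ℓ : ℂ)⁻¹ * ∑ j ∈ Finset.range ℓ, h (heckeMatrix ℓ j • z) := by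
  have hℓ0 : ℓ ≠ 0 := hℓ.ne_zero
  have hℓ' : (ℓ : ℂ) ≠ 0 := by exact_mod_cast hℓ0
  have h1 : CuspForm.heckeTLin 2 hℓ hℓN f z = t * f z := by
    rw [ht]; rfl
  rw [CuspForm.heckeTLin_apply_apply, heckeT_apply 2 hℓ0] at h1
  have h2 : ∑ j ∈ Finset.range ℓ, h (heckeMatrix ℓ j • z) =
      ∑ j ∈ Finset.range ℓ, f (heckeMatrix ℓ j • z) - ℓ * (α * f z) := by
    rw [Finset.sum_congr rfl (fun j _ => hh (heckeMatrix ℓ j • z)), Finset.sum_sub_distrib]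
    congr 1
    rw [Finset.sum_congr rfl (fun j _ => by rw [stab_diag_smul hℓ0, stab_period])]
    simp
  rw [h2, mul_sub, hh z]
  have h3 : (ℓ : ℂ)⁻¹ * ∑ j ∈ Finset.range ℓ, f (heckeMatrix ℓ j • z) =
      t * f z - (ℓ : ℂ) * f (heckeDiagMatrix ℓ • z) := by
    have : ((ℓ : ℂ) ^ ((2 : ℤ) - 1)) = ℓ := by norm_num
    rw [this] at h1
    linear_combination h1
  rw [h3, inv_mul_cancel_left₀ hℓ', ← hs, ← hp]
  ring

theorem stab_im {ℓ : ℕ} (hℓ : ℓ ≠ 0) (j : ℕ) (z : ℍ) :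
    (heckeMatrix ℓ j • z).im = z.im / ℓ := by
  have h := congrArg Complex.im (coe_heckeMatrix_smul hℓ j z)
  rw [UpperHalfPlane.coe_im] at h
  rw [h, Complex.div_natCast_im]
  simp

theorem stab_mean {ℓ : ℕ} (hℓ : ℓ ≠ 0) (β : ℂ) (h : ℍ → ℂ) (z : ℍ)
    (hU : β * h z = (ℓ : ℂ)⁻¹ * ∑ j ∈ Finset.range ℓ, h (heckeMatrix ℓ j • z)) :
    ‖β‖ * (z.im * ‖h z‖) ≤
      ∑ j ∈ Finset.range ℓ, (heckeMatrix ℓ j • z).im * ‖h (heckeMatrix ℓ j • z)‖ := by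
  have hℓ' : (0 : ℝ) < ℓ := by exact_mod_cast Nat.pos_of_ne_zero hℓ
  have h1 : ‖β‖ * ‖h z‖ = (ℓ : ℝ)⁻¹ * ‖∑ j ∈ Finset.range ℓ, h (heckeMatrix ℓ j • z)‖ := by
    rw [← norm_mul, hU, norm_mul, norm_inv, Complex.norm_natCast]
  have h2 : ‖∑ j ∈ Finset.range ℓ, h (heckeMatrix ℓ j • z)‖ ≤
      ∑ j ∈ Finset.range ℓ, ‖h (heckeMatrix ℓ j • z)‖ := norm_sum_le _ _
  have h3 : ∑ j ∈ Finset.range ℓ, (heckeMatrix ℓ j • z).im * ‖h (heckeMatrix ℓ j • z)‖ =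
      z.im * ((ℓ : ℝ)⁻¹ * ∑ j ∈ Finset.range ℓ, ‖h (heckeMatrix ℓ j • z)‖) := by
    rw [Finset.mul_sum, Finset.mul_sum]
    refine Finset.sum_congr rfl fun j _ => ?_
    rw [stab_im hℓ]
    ring
  rw [h3]
  calc ‖β‖ * (z.im * ‖h z‖) = z.im * (‖β‖ * ‖h z‖) := by ring
    _ ≤ _ := by
      rw [h1]
      exact mul_le_mul_of_nonneg_left
        (mul_le_mul_of_nonneg_left h2 (inv_nonneg.mpr hℓ'.le)) z.im_pos.le

end Fermat.Agent.S37.Fin
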