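import Fermat.Agent.S37.Fin.Pet
import Fermat.Agent.S37.Fin.Stab

/-!
# S37/Fin : no root of the Hecke polynomial `X² - t X + ℓ` of a cuspidal eigenform has absolute value `1`

Maximum principle for `G(z) = im z * ‖h z‖`, `h(z) = f(z) - α f(ℓ z)`.
-/

set_option autoImplicit false

open UpperHalfPlane CongruenceSubgroup ModularForm Filter Topology
open scoped MatrixGroups

namespace Fermat.Agent.S37.Fin

theorem im_heckeDiagMatrix_smul {ℓ : ℕ} (hℓ : ℓ ≠ 0) (z : ℍ) :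
    (heckeDiagMatrix ℓ • z).im = ℓ * z.im := by
  have h := congrArg Complex.im (coe_heckeDiagMatrix_smul hℓ z)
  rw [UpperHalfPlane.coe_im] at h
  rw [h]
  simp

/-- a cusp form with `f(z) = α f(ℓ z)`, `‖α‖ = 1`, `ℓ ≥ 2`, vanishes. -/
theorem eq_zero_of_dilate {N ℓ : ℕ} [NeZero N] (hℓ : 1 < ℓ) (f : CuspForm (Gamma0 N) 2) (α : ℂ)
    (hα : ‖α‖ = 1) (h : ∀ z : ℍ, f z = α * f (heckeDiagMatrix ℓ • z)) : f = 0 := by
  obtain ⟨z₀, hz₀⟩ := exists_max_form f
  have hℓ0 : ℓ ≠ 0 := by omega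
  have h1 := hz₀ (heckeDiagMatrix ℓ • z₀)
  have h2 : ‖f z₀‖ = ‖f (heckeDiagMatrix ℓ • z₀)‖ := by
    rw [h z₀, norm_mul, hα, one_mul]
  rw [im_heckeDiagMatrix_smul hℓ0, ← h2] at h1
  have hℓ' : (2 : ℝ) ≤ ℓ := by exact_mod_cast hℓ
  have hpos : 0 ≤ z₀.im * ‖f z₀‖ := mul_nonneg z₀.im_pos.le (norm_nonneg _)
  have h3 : z₀.im * ‖f z₀‖ = 0 := by nlinarith
  ext z
  have h4 := hz₀ z
  rw [h3] at h4
  have h5 : ‖f z‖ ≤ 0 := by
    by_contra hcon
    rw [not_le] at hcon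
    have := mul_pos z.im_pos hcon
    linarith
  simpa using h5

theorem norm_ne_one {N ℓ : ℕ} [NeZero N] (hℓ : ℓ.Prime) (hℓN : ¬ ℓ ∣ N)
    (f : CuspForm (Gamma0 N) 2) (hf : f ≠ 0) (t α β : ℂ)
    (ht : CuspForm.heckeTLin 2 hℓ hℓN f = t • f) (hs : α + β = t) (hp : α * β = ℓ) :
    ‖α‖ ≠ 1 := by
  intro hα
  have : NeZero ℓ := ⟨hℓ.ne_zero⟩
  have hβ : ‖β‖ = ℓ := by
    have h := congrArg norm hp
    rw [norm_mul, hα, one_mul] at h
    simpa using h
  obtain ⟨h, hh⟩ := exists_stab N ℓ f α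
  obtain ⟨z₀, hz₀⟩ := exists_max_form h
  set G : ℍ → ℝ := fun z => z.im * ‖h z‖ with hG
  have hG0 : ∀ z, 0 ≤ G z := fun z => mul_nonneg z.im_pos.le (norm_nonneg _)
  have hM : 0 < G z₀ := by
    rcases (hG0 z₀).lt_or_eq with h1 | h1
    · exact h1
    · exfalso
      apply hf
      apply eq_zero_of_dilate hℓ.one_lt f α hα
      intro z
      have h2 : G z ≤ 0 := h1 ▸ hz₀ z
      have h3 : ‖h z‖ ≤ 0 := by
        by_contra hcon
        rw [not_le] at hcon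
        have := mul_pos z.im_pos hcon
        exact absurd h2 (not_le.2 this)
      have h4 : h z = 0 := by simpa using h3
      rw [hh z, sub_eq_zero] at h4
      exact h4
  have step : ∀ z, G z = G z₀ → G (heckeMatrix ℓ 0 • z) = G z₀ := by
    intro z hz
    have h1 := stab_mean hℓ.ne_zero β h z (stab_U hℓ hℓN f t α β ht hs hp h hh z)
    rw [hβ] at h1
    change (ℓ : ℝ) * G z ≤ ∑ j ∈ Finset.range ℓ, G (heckeMatrix ℓ j • z) at h1
    rw [hz] at h1
    have h0 : 0 ∈ Finset.range ℓ := Finset.mem_range.2 hℓ.pos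
    rw [← Finset.add_sum_erase _ _ h0] at h1
    have h2 : ∑ j ∈ (Finset.range ℓ).erase 0, G (heckeMatrix ℓ j • z) ≤
        ∑ _j ∈ (Finset.range ℓ).erase 0, G z₀ := Finset.sum_le_sum fun j _ => hz₀ _
    rw [Finset.sum_const, Finset.card_erase_of_mem h0, Finset.card_range, nsmul_eq_mul] at h2
    have h3 : ((ℓ - 1 : ℕ) : ℝ) = (ℓ : ℝ) - 1 := by
      rw [Nat.cast_sub hℓ.pos]; simp
    rw [h3] at h2
    have h4 := hz₀ (heckeMatrix ℓ 0 • z)
    change G (heckeMatrix ℓ 0 • z) ≤ G z₀ at h4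
    apply le_antisymm h4
    nlinarith
  let w : ℕ → ℍ := fun r => (fun z => heckeMatrix ℓ 0 • z)^[r] z₀
  have hw : ∀ r, G (w r) = G z₀ := by
    intro r
    induction r with
    | zero => rfl
    | succ r ih =>
      have : w (r + 1) = heckeMatrix ℓ 0 • w r := Function.iterate_succ_apply' _ _ _
      rw [this]
      exact step _ ih
  have hwc : ∀ r, (w r : ℂ) = (z₀ : ℂ) / (((ℓ : ℝ) ^ r : ℝ) : ℂ) := by
    intro r
    induction r with
    | zero => simp [w]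
    | succ r ih =>
      have : w (r + 1) = heckeMatrix ℓ 0 • w r := Function.iterate_succ_apply' _ _ _
      rw [this, coe_heckeMatrix_smul hℓ.ne_zero, ih]
      have hℓc : (ℓ : ℂ) ≠ 0 := by exact_mod_cast hℓ.ne_zero
      push_cast
      field_simp
      ring
  have hlim := tendsto_radial h z₀ (fun r => (ℓ : ℝ) ^ r)
    (tendsto_pow_atTop_atTop_of_one_lt (by exact_mod_cast hℓ.one_lt)) w hwc
  have hconst : (fun r => (w r).im * ‖h (w r)‖) = fun _ => G z₀ := funext hw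
  rw [hconst] at hlim
  have := tendsto_nhds_unique hlim tendsto_const_nhds
  exact hM.ne this

end Fermat.Agent.S37.Fin
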