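import Mathlib

/-!
# S37/Fin, leaf FIN-Res : the norm of `σ^k - 1` from `ℤ[T][σ]/(σ² - Tσ + ℓ)` to `ℤ[T]`  (Mathlib only)

`σ^j = a_j(T) σ + b_j(T)`, `(a_0,b_0) = (0,1)`, `a_{j+1} = T a_j + b_j`, `b_{j+1} = -ℓ a_j`.
`c_k = ℓ u² + u v T + v²`, `u = a_k`, `v = b_k - 1`;  `(u (T - σ) + v)(u σ + v) = c_k(T)` because `σ (T - σ) = ℓ`.

SKETCH (about 100 lines).
* `pow_eq` : induction on `j`; `σ^(j+1) = (a σ + b) σ = a σ² + b σ`, `σ² = T σ - ℓ` (from `hq`); all `aeval T _` commute with `σ` and `T`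
  (`Commute` lemmas: `(Polynomial.aeval T p)` commutes with `σ` : `Polynomial.induction_on` or `Algebra.commute_of_mem_adjoin_...`; simplest: prove
  `comm_aeval : Commute σ (aeval T p)` by `Polynomial.induction_on'`). `noncomm_ring` after rewriting the commutations, or work with `Commute.mul_...`.
* `cP_eq` : rewrite `σ^k - 1 = u σ + v` by `pow_eq`, expand, use `(T - σ) σ = ℓ`.
* `cP_complex` : `cP_eq` in `ℂ` with `σ = α`, `T = t` (`hq : α α - t α + ℓ = 0` by `linear_combination`), and `u β + v = β^k - 1` by `pow_eq` for `β`.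
-/

set_option autoImplicit false

open Polynomial

namespace Fermat.Agent.S37.Fin

/-- the pair `(a_j, b_j)`. -/
noncomputable def ab (ℓ : ℕ) : ℕ → ℤ[X] × ℤ[X]
  | 0 => (0, 1)
  | j + 1 => (X * (ab ℓ j).1 + (ab ℓ j).2, -C (ℓ : ℤ) * (ab ℓ j).1)

/-- `c_k = N(σ^k - 1)`. -/
noncomputable def cP (ℓ k : ℕ) : ℤ[X] :=
  C (ℓ : ℤ) * (ab ℓ k).1 ^ 2 + (ab ℓ k).1 * ((ab ℓ k).2 - 1) * X + ((ab ℓ k).2 - 1) ^ 2

theorem res_comm {E : Type*} [Ring E] (σ T : E) (hc : Commute σ T) (p : ℤ[X]) :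
    Commute σ (aeval T p) := by
  induction p using Polynomial.induction_on' with
  | add p q hp hq =>
    rw [map_add]
    exact hp.add_right hq
  | monomial n a =>
    rw [aeval_monomial]
    exact (Algebra.commute_algebraMap_right a σ).mul_right (hc.pow_right n)

/-- evaluation `ℤ[X][Y] → E`, `X ↦ T`, `Y ↦ σ`. -/
noncomputable def resPhi {E : Type*} [Ring E] (σ T : E) (hc : Commute σ T) : ℤ[X][X] →+* E :=
  eval₂RingHom' (aeval T : ℤ[X] →ₐ[ℤ] E).toRingHom σ (fun p => (res_comm σ T hc p).symm)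

theorem resPhi_C {E : Type*} [Ring E] (σ T : E) (hc : Commute σ T) (p : ℤ[X]) :
    resPhi σ T hc (C p) = aeval T p := by
  simp [resPhi]

theorem resPhi_X {E : Type*} [Ring E] (σ T : E) (hc : Commute σ T) :
    resPhi σ T hc X = σ := by
  simp [resPhi]

theorem resPhi_rel {E : Type*} [Ring E] (σ T : E) (hc : Commute σ T) (ℓ : ℕ)
    (hq : σ * σ - T * σ + (ℓ : E) = 0) :
    resPhi σ T hc (X * X - C X * X + C (C (ℓ : ℤ))) = 0 := by
  rw [map_add, map_sub, map_mul, map_mul, resPhi_X, resPhi_C, resPhi_C, aeval_X, aeval_C]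
  simpa using hq

theorem res_pow_poly (ℓ j : ℕ) : ∃ Q : ℤ[X][X],
    (X : ℤ[X][X]) ^ j = C (ab ℓ j).1 * X + C (ab ℓ j).2 +
      Q * (X * X - C X * X + C (C (ℓ : ℤ))) := by
  induction j with
  | zero => exact ⟨0, by simp [ab]⟩
  | succ j ih =>
    obtain ⟨Q, hQ⟩ := ih
    refine ⟨Q * X + C (ab ℓ j).1, ?_⟩
    rw [pow_succ, hQ, ab]
    simp only [map_add, map_mul, map_neg]
    ring

theorem pow_eq {E : Type*} [Ring E] (σ T : E) (hc : Commute σ T) (ℓ : ℕ)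
    (hq : σ * σ - T * σ + (ℓ : E) = 0) (j : ℕ) :
    σ ^ j = aeval T (ab ℓ j).1 * σ + aeval T (ab ℓ j).2 := by
  obtain ⟨Q, hQ⟩ := res_pow_poly ℓ j
  have h := congrArg (resPhi σ T hc) hQ
  rw [map_pow, map_add, map_add, map_mul, map_mul, resPhi_rel σ T hc ℓ hq, mul_zero, add_zero,
    resPhi_X, resPhi_C, resPhi_C] at h
  exact h

theorem cP_eq {E : Type*} [Ring E] (σ T : E) (hc : Commute σ T) (ℓ : ℕ)
    (hq : σ * σ - T * σ + (ℓ : E) = 0) (k : ℕ) :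
    aeval T (cP ℓ k) =
      (aeval T (ab ℓ k).1 * (T - σ) + aeval T ((ab ℓ k).2 - 1)) * (σ ^ k - 1) := by
  have hid : (C (cP ℓ k) : ℤ[X][X]) =
      (C (ab ℓ k).1 * (C X - X) + C ((ab ℓ k).2 - 1)) * (C (ab ℓ k).1 * X + C (ab ℓ k).2 - 1) +
        C ((ab ℓ k).1 ^ 2) * (X * X - C X * X + C (C (ℓ : ℤ))) := by
    rw [cP]
    simp only [map_add, map_mul, map_sub, map_pow, map_one]
    ring
  have h := congrArg (resPhi σ T hc) hid
  rw [map_add, map_mul _ (C ((ab ℓ k).1 ^ 2)), resPhi_rel σ T hc ℓ hq, mul_zero, add_zero] at h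
  simp only [map_mul, map_add, map_sub, map_one, resPhi_X, resPhi_C, aeval_X] at h
  rw [h, pow_eq σ T hc ℓ hq k, map_sub, map_one]

theorem cP_complex (ℓ k : ℕ) (t α β : ℂ) (hs : α + β = t) (hp : α * β = ℓ) :
    aeval t (cP ℓ k) = (α ^ k - 1) * (β ^ k - 1) := by
  have hqα : α * α - t * α + (ℓ : ℂ) = 0 := by rw [← hs, ← hp]; ring
  have hqβ : β * β - t * β + (ℓ : ℂ) = 0 := by rw [← hs, ← hp]; ring
  rw [cP_eq α t (Commute.all _ _) ℓ hqα k, pow_eq β t (Commute.all _ _) ℓ hqβ k, map_sub, map_one,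
    ← hs]
  ring

end Fermat.Agent.S37.Fin
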