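import Fermat.Agent.S37.Fin.An
import Fermat.Agent.S37.Fin.Res
import Fermat.Agent.S23.Main

/-!
# S37/Fin, leaf FIN-Eig : `c_k(T_ℓ)` is injective on `S₂(Γ₀(N))`

SKETCH (about 100 lines). `T := CuspForm.heckeTLin 2 hℓ hℓN`, `c := cP ℓ k`, `K := LinearMap.ker (aeval T c)`.
Suppose `K ≠ ⊥`. `K` is `T`-stable (`aeval T c` commutes with `T`: `Polynomial.aeval_X`, `Commute`, or `(Algebra.commute_...)`; concretely `aeval T c (T f) = aeval T (c * X) f = T (aeval T c f)`).
`S₂(Γ₀(N))` is finite dimensional (`inferInstance`; otherwise grep `FiniteDimensional ℂ (CuspForm` in `Fermat/Agent/S20*`, `S22`, Mathlib `CuspForm`/`ModularForm` `finiteDimensional`),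
so `T.restrict` on `K` has an eigenvector (`Module.End.exists_eigenvalue`, `Module.End.HasEigenvalue.exists_hasEigenvector`): `f₀ ≠ 0`, `T f₀ = t • f₀`, `aeval T c f₀ = 0`.
`aeval T c f₀ = (aeval t c) • f₀` (`Module.End.aeval_apply_of_hasEigenvector` is stated for polynomials over the field; for `c : ℤ[X]` use `Polynomial.aeval_map_algebraMap ℂ`, or
a direct `Polynomial.induction_on`). So `aeval t c = 0`.
Take a root `α` of `X² - t X + ℓ` in `ℂ` (`IsAlgClosed.exists_root` or `Complex.exists_root`, or the explicit formula with `Complex.cpow`/`IsAlgClosed.exists_pow_nat_eq`), `β = t - α`, `α β = ℓ`.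
`cP_complex` : `(α^k - 1)(β^k - 1) = 0`; if `α^k = 1` then `‖α‖^k = 1`, `‖α‖ = 1` (`pow_eq_one_iff_of_nonneg`), contradiction with `norm_ne_one … α β`; same for `β` (`norm_ne_one … β α`, `add_comm`, `mul_comm`).
-/

set_option autoImplicit false

open CongruenceSubgroup Polynomial

namespace Fermat.Agent.S37.Fin

/-- EIG: an eigenvalue `t` of `T_ℓ` on cusp forms is not a root of `c_k`. -/
theorem cP_eigen_ne_zero {N ℓ : ℕ} [NeZero N] (hℓ : ℓ.Prime) (hℓN : ¬ ℓ ∣ N) {k : ℕ} (hk : 0 < k)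
    (f : CuspForm (Gamma0 N) 2) (hf : f ≠ 0) (t : ℂ)
    (ht : CuspForm.heckeTLin 2 hℓ hℓN f = t • f) : aeval t (cP ℓ k) ≠ 0 := by
  intro h0
  obtain ⟨α, hα⟩ : ∃ α : ℂ, α * α - t * α + (ℓ : ℂ) = 0 := by
    obtain ⟨α, hα⟩ := IsAlgClosed.exists_root (X ^ 2 - C t * X + C (ℓ : ℂ) : ℂ[X]) (by
      have : (X ^ 2 - C t * X + C (ℓ : ℂ) : ℂ[X]) = C 1 * X ^ 2 + C (-t) * X + C (ℓ : ℂ) := by
        simp only [map_one, map_neg]; ring
      rw [this, degree_quadratic one_ne_zero]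
      norm_num)
    refine ⟨α, ?_⟩
    simp only [IsRoot.def, eval_add, eval_sub, eval_pow, eval_X, eval_mul, eval_C] at hα
    linear_combination hα
  have hs : α + (t - α) = t := by ring
  have hp : α * (t - α) = ℓ := by linear_combination -hα
  rw [cP_complex ℓ k t α (t - α) hs hp] at h0
  rcases mul_eq_zero.mp h0 with h | h
  · apply norm_ne_one hℓ hℓN f hf t α (t - α) ht hs hp
    have h1 : α ^ k = 1 := sub_eq_zero.mp h
    exact Complex.norm_eq_one_of_pow_eq_one h1 hk.ne'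
  · apply norm_ne_one hℓ hℓN f hf t (t - α) α ht (by ring) (by rw [mul_comm]; exact hp)
    have h1 : (t - α) ^ k = 1 := sub_eq_zero.mp h
    exact Complex.norm_eq_one_of_pow_eq_one h1 hk.ne'

/-- EIG: `c_k(T_ℓ)` is injective on `S₂(Γ₀(N))`. -/
theorem form_injective {N ℓ : ℕ} [NeZero N] (hℓ : ℓ.Prime) (hℓN : ¬ ℓ ∣ N) {k : ℕ} (hk : 0 < k) :
    Function.Injective (aeval (CuspForm.heckeTLin 2 hℓ hℓN) (cP ℓ k) :
      Module.End ℂ (CuspForm (Gamma0 N) 2)) := by
  have hfd : FiniteDimensional ℂ (CuspForm (Gamma0 N) 2) := S23.main_finiteDimensional N 2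
  set T : Module.End ℂ (CuspForm (Gamma0 N) 2) := CuspForm.heckeTLin 2 hℓ hℓN with hT
  set c : Module.End ℂ (CuspForm (Gamma0 N) 2) := aeval T (cP ℓ k) with hc
  rw [← LinearMap.ker_eq_bot]
  by_contra hne
  have hcomm : Commute T c := res_comm T T (Commute.refl T) (cP ℓ k)
  have hstab : ∀ x ∈ LinearMap.ker c, T x ∈ LinearMap.ker c := by
    intro x hx
    rw [LinearMap.mem_ker] at hx ⊢
    have : c (T x) = T (c x) := by
      have := congrArg (fun e : Module.End ℂ (CuspForm (Gamma0 N) 2) => e x) hcomm.eq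
      exact this.symm
    rw [this, hx, map_zero]
  have hnt : Nontrivial (LinearMap.ker c) := Submodule.nontrivial_iff_ne_bot.mpr hne
  obtain ⟨t, ht⟩ := Module.End.exists_eigenvalue (T.restrict hstab)
  obtain ⟨v, hv⟩ := ht.exists_hasEigenvector
  have hv0 : (v : CuspForm (Gamma0 N) 2) ≠ 0 := fun h => hv.2 (Subtype.ext h)
  have hTv : T (v : CuspForm (Gamma0 N) 2) = t • (v : CuspForm (Gamma0 N) 2) := by
    have := congrArg Subtype.val hv.apply_eq_smul
    exact this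
  have hcv : c (v : CuspForm (Gamma0 N) 2) = (aeval t (cP ℓ k)) • (v : CuspForm (Gamma0 N) 2) := by
    have hev : Module.End.HasEigenvector T t (v : CuspForm (Gamma0 N) 2) :=
      ⟨Module.End.mem_eigenspace_iff.mpr hTv, hv0⟩
    have h1 := Module.End.aeval_apply_of_hasEigenvector (p := (cP ℓ k).map (algebraMap ℤ ℂ)) hev
    rw [aeval_map_algebraMap, eval_map_algebraMap] at h1
    exact h1
  have h0 : c (v : CuspForm (Gamma0 N) 2) = 0 := v.2
  rw [hcv] at h0
  rcases smul_eq_zero.mp h0 with h | h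
  · exact cP_eigen_ne_zero hℓ hℓN hk _ hv0 t hTv h
  · exact hv0 h

theorem cP_forms_injective {N ℓ : ℕ} [NeZero N] (hℓ : ℓ.Prime) (hℓN : ¬ ℓ ∣ N) {k : ℕ}
    (hk : 0 < k) (f : CuspForm (Gamma0 N) 2)
    (hf : aeval (CuspForm.heckeTLin 2 hℓ hℓN) (cP ℓ k) f = 0) : f = 0 :=
  form_injective hℓ hℓN hk (hf.trans (map_zero _).symm)

end Fermat.Agent.S37.Fin
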