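import Fermat.Agent.NEW.LinkConv

/-!
# S37/Fin, leaf FIN-Lat : a polynomial in `T_ℓ` which is injective on `S₂(Γ₀(N))` is injective on the lattice `Hom_par(Γ₀(N), ℤ)`

SKETCH (about 100 lines): copy the proof of `NEW.lat_link_conv` (`Fermat/Agent/NEW/LinkConv.lean`).
`Q := aeval (FreeAlgebra.ι ℤ ℓ) P : FreeAlgebra ℤ ℕ`; for every family `t : ℕ → E` : `FreeAlgebra.lift ℤ t Q = aeval (t ℓ) P` (`Polynomial.aeval_algHom_apply`, `FreeAlgebra.lift_ι_apply`).
`S31.heckeFam N ℓ = CuspForm.heckeTLin 2 hℓ hℓN` (`dif_pos ⟨hℓ, hℓN⟩`).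
Let `φ : S31.Lat N`, `aeval (latT N ℓ) P φ = 0`. `NEW.latι_eq_periods N φ` : `latι φ = latJ f + latJ' f + (latJ g - latJ' g)`.
Apply `FreeAlgebra.lift ℤ (funT N) Q` and the three intertwining relations `h1 h2 h3` of `lat_link_conv`:
`0 = latJ f' + latJ' f' + (latJ g' - latJ' g')` with `f' = P(T) f`, `g' = P(T) g`. This says `periodHomPair N (f', g') = 0` (unfold as in `latι_eq_periods`:
`periodHomPair_def`, `charInvolution_apply`; `latJ' N f γ = perJ N f γ = periodMap N f (jConj γ)`), so `f' = g' = 0` (`ES.periodHomPair_injective N`), `f = g = 0` (`hP`),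
`latι φ = 0`, `φ = 0` (`NEW.latι_injective`). Injectivity from kernel: `injective_iff_map_eq_zero`.
-/

set_option autoImplicit false

open CongruenceSubgroup Polynomial ModularCurve ModularCurve.Period

namespace Fermat.Agent.S37.Fin

/-- intertwining is inherited by integral polynomials. -/
theorem lat_intertwine {R S A B : Type*} [CommRing R] [CommRing S] [AddCommGroup A] [AddCommGroup B]
    [Module R A] [Module S B] (tA : Module.End R A) (tB : Module.End S B) (j : A →+ B)
    (hj : ∀ a, j (tA a) = tB (j a)) (p : ℤ[X]) (a : A) :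
    j (aeval tA p a) = aeval tB p (j a) := by
  induction p using Polynomial.induction_on' generalizing a with
  | add p q hp hq =>
    rw [map_add, map_add, LinearMap.add_apply, LinearMap.add_apply, map_add, hp, hq]
  | monomial n c =>
    rw [aeval_monomial, aeval_monomial]
    have hpow : ∀ (n : ℕ) (a : A), j ((tA ^ n) a) = (tB ^ n) (j a) := by
      intro n
      induction n with
      | zero => intro a; simp
      | succ n ih =>
        intro a
        rw [pow_succ, pow_succ, Module.End.mul_apply, Module.End.mul_apply, ih, hj]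
    rw [Module.End.mul_apply, Module.End.mul_apply, eq_intCast (algebraMap ℤ (Module.End R A)) c,
      eq_intCast (algebraMap ℤ (Module.End S B)) c, Module.End.intCast_apply,
      Module.End.intCast_apply, map_zsmul, hpow]

open Fermat.Agent.S31 Fermat.Agent.NEW in
/-- injectivity of the Eichler-Shimura pair in the `latJ`, `latJ'` form. -/
theorem lat_pair_eq_zero (N : ℕ) [NeZero N] (f g : CuspForm (Gamma0 N) 2)
    (h : latJ N f + latJ' N f + (latJ N g - latJ' N g) = 0) : f = 0 ∧ g = 0 := by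
  obtain ⟨pml, hpml, hdef⟩ := periodHomPair_def N (Fermat.Agent.ES.existsPeriodMapLinear N)
  have h1 : periodHomPair N (f, g) = 0 := by
    refine AddMonoidHom.ext fun γ => ?_
    rw [hdef]
    simp only [LinearMap.coprod_apply, LinearMap.comp_apply, LinearMap.add_apply,
      LinearMap.sub_apply, LinearMap.id_apply, hpml, AddMonoidHom.add_apply,
      AddMonoidHom.sub_apply, charInvolution_apply, AddMonoidHom.zero_apply]
    exact congrFun h (Additive.toMul γ)
  have h2 := Fermat.Agent.ES.periodHomPair_injective N (h1.trans (map_zero _).symm)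
  exact ⟨congrArg Prod.fst h2, congrArg Prod.snd h2⟩

open Fermat.Agent.S31 Fermat.Agent.NEW in
theorem lat_injective {N ℓ : ℕ} [NeZero N] (hℓ : ℓ.Prime) (hℓN : ¬ ℓ ∣ N) (P : ℤ[X])
    (hP : ∀ f : CuspForm (Gamma0 N) 2, aeval (CuspForm.heckeTLin 2 hℓ hℓN) P f = 0 → f = 0) :
    Function.Injective (aeval (S31.latT N ℓ) P) := by
  rw [injective_iff_map_eq_zero]
  intro φ hφ
  have hfam : heckeFam N ℓ = CuspForm.heckeTLin 2 hℓ hℓN := dif_pos ⟨hℓ, hℓN⟩
  obtain ⟨f, g, hfg⟩ := latι_eq_periods N φ
  have h1 := lat_intertwine (latT N ℓ) (funT N ℓ) (latι N) (latι_latT N ℓ) P φ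
  have h2 := lat_intertwine (heckeFam N ℓ) (funT N ℓ) (latJ N) (latJ_heckeFam N ℓ) P
  have h3 := lat_intertwine (heckeFam N ℓ) (funT N ℓ) (latJ' N) (latJ'_heckeFam N ℓ) P
  rw [hφ, map_zero, hfg, map_add, map_add, map_sub, ← h2, ← h3, ← h2, ← h3] at h1
  obtain ⟨hf, hg⟩ := lat_pair_eq_zero N _ _ h1.symm
  rw [hfam] at hf hg
  have hf0 : f = 0 := hP f hf
  have hg0 : g = 0 := hP g hg
  apply latι_injective N
  rw [hfg, hf0, hg0]
  simp

end Fermat.Agent.S37.Fin
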