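import Fermat.Agent.S37.Fin.Eig
import Fermat.Agent.S37.Fin.Lat
import Fermat.Agent.S37.Fin.Adj
import Fermat.Agent.NV.KappaSurj
import Fermat.Agent.NV.KappaLat
import Fermat.Agent.NV.KappaKer
import Fermat.Agent.GES.Relation

/-!
# S37/Fin : the fixed points of `Frob^k` on the Kummer groups `VN N m` are killed by an integer `d_k ≠ 0` independent of `m`
-/

set_option autoImplicit false

open CongruenceSubgroup Polynomial
open Fermat.Agent.S24 (Kb)
open Fermat.Agent.GES (GQ VN rhoV TV)

namespace Fermat.Agent.S37.Fin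

/-- an additive map intertwining two endomorphisms intertwines all integral polynomials in them. -/
theorem aeval_intertwine {H V R : Type*} [AddCommGroup H] [AddCommGroup V] [CommRing R] [Module R V]
    (T : Module.End ℤ H) (T' : Module.End R V) (j : H →+ V) (hj : ∀ h, j (T h) = T' (j h))
    (P : ℤ[X]) (h : H) : j (aeval T P h) = aeval T' P (j h) := by
  induction P using Polynomial.induction_on' generalizing h with
  | add p q hp hq =>
    rw [map_add, map_add, LinearMap.add_apply, LinearMap.add_apply, map_add, hp, hq]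
  | monomial n a =>
    rw [aeval_monomial, aeval_monomial]
    simp only [Module.End.mul_apply, eq_intCast, Module.End.intCast_apply]
    rw [map_zsmul]
    congr 1
    induction n generalizing h with
    | zero => simp
    | succ n ih =>
      rw [pow_succ, pow_succ, Module.End.mul_apply, Module.End.mul_apply, ih, hj]

/-- the abstract form of the bound. -/
theorem bound_abs {H V R : Type*} [AddCommGroup H] [AddCommGroup V] [CommRing R] [Module R V]
    (T : Module.End ℤ H) (T' σ : Module.End R V) (j : H →+ V) (hj : ∀ h, j (T h) = T' (j h))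
    (hsurj : Function.Surjective j) (m : ℕ) (hker : ∀ h, j h = 0 → ∃ h', h = m • h')
    (hm : ∀ v : V, m • v = 0) (ℓ k d : ℕ)
    (hadj : ∀ h h' : H, aeval T (cP ℓ k) h = m • h' → ∃ h'' : H, d • h = m • h'')
    (hc : Commute σ T') (hq : σ * σ - T' * σ + (ℓ : Module.End R V) = 0)
    (w : V) (hw : (σ ^ k) w = w) : d • w = 0 := by
  have h1 : aeval T' (cP ℓ k) w = 0 := by
    rw [cP_eq σ T' hc ℓ hq k, Module.End.mul_apply, LinearMap.sub_apply, hw,
      Module.End.one_apply, sub_self, map_zero]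
  obtain ⟨h, rfl⟩ := hsurj w
  rw [← aeval_intertwine T T' j hj] at h1
  obtain ⟨h', hh'⟩ := hker _ h1
  obtain ⟨h'', hh''⟩ := hadj h h' hh'
  rw [← map_nsmul, hh'', map_nsmul]
  exact hm _

set_option synthInstance.maxHeartbeats 400000 in
set_option maxHeartbeats 1000000 in
theorem exists_bound (N ℓ k : ℕ) [NeZero N] (hℓ : ℓ.Prime) (hℓN : ¬ ℓ ∣ N) (hk : 0 < k) :
    ∃ d : ℕ, d ≠ 0 ∧ ∀ (m : ℕ) [NeZero m], ¬ ℓ ∣ N * m →
      ∀ A : ValuationSubring Kb, A.LiesOverPrime ℓ → ∀ s : GQ, A.IsFrobeniusAt s ℓ →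
      ∀ w : VN N m, (rhoV N m s ^ k) w = w → d • w = 0 := by
  obtain ⟨d, hd, hadj⟩ := exists_adj (aeval (S31.latT N ℓ) (cP ℓ k))
    (lat_injective hℓ hℓN (cP ℓ k) fun f hf => cP_forms_injective hℓ hℓN hk f hf)
  refine ⟨d, hd, ?_⟩
  intro m _ hℓm A hA s hs w hw
  have hes := GES.es_relation N m ℓ hℓ hℓm A hA s hs
  refine bound_abs (S31.latT N ℓ) (TV N m ℓ) (rhoV N m s) (NV.kappa N m)
    (fun h => NV.kappa_latT N m ℓ hℓ hℓN h) (NV.kappa_surjective N m) m
    (fun h hh => NV.kappa_ker N m h hh) (fun v => GES.Vm.nsmul_eq_zero v) ℓ k d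
    (fun h h' hh => hadj m h h' hh) (GES.TV_comm_rhoV N m ℓ s).symm ?_ w hw
  rw [← hes]
  congr 1
  ext x
  simp [Nat.cast_smul_eq_nsmul]

end Fermat.Agent.S37.Fin
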