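import Mathlib

/-!
# S37/Fin, leaf FIN-Max : an invariant function vanishing at the cusps attains its maximum  (Mathlib only)

SKETCH (about 150 lines; model: `Mathlib/NumberTheory/ModularForms/Bounds.lean`, `exists_bound_of_subgroup_invariant_of_isBigO`).
* If `G = 0` everywhere take any point. Otherwise fix `z₁` with `ε := G z₁ > 0`.
* `Q := SL(2,ℤ) ⧸ Γ` is finite (`Subgroup.fintypeQuotientOfFiniteIndex`). `G' z : Q → ℝ := Quotient.lift (fun g ↦ G (g⁻¹ • z)) _` (well defined by `hinv`),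
  each `G' · q` is continuous, tends to `0` at `i∞` (`hcusp g⁻¹`), and `G' (g • z) (g • q) = G' z q`.
  `F z := ∑ q, ...` is NOT what we want; use the finite SUP: `F z := Finset.univ.sup' ⟨⟦1⟧, _⟩ (G' z)` (continuous: `Continuous.finset_sup'`-type lemma, or avoid `F`:)
* ALTERNATIVE without sup: choose `Y` with `G' z q < ε` for all `q` and all `z` with `Y ≤ im z` (finitely many `q`: `Filter.eventually_all`, `atImInfty` =
  `comap im atTop`). For each `q` the continuous function `G' · q` attains its maximum on the compact set `ModularGroup.truncatedFundamentalDomain Y`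
  (`isCompact_truncatedFundamentalDomain`, `IsCompact.exists_isMaxOn`; it is nonempty: it contains the translate of `z₁`, see below); take the best pair `(q₀, w₀)`
  (`Finset.exists_max_image`). Put `z₀ = g₀⁻¹ • w₀` (`q₀ = ⟦g₀⟧`).
* For arbitrary `z` : `ModularGroup.exists_smul_mem_fd z` gives `g` with `w = g • z ∈ 𝒟`; `G z = G' w ⟦g⟧` (as `g⁻¹ • w = z`). If `im w ≥ Y` then `G z < ε`;
  if `im w ≤ Y` then `w` is in the truncated domain and `G z ≤ G' w₀ q₀ = G z₀`. Applied to `z₁` : the first case is impossible, so the truncated domain is nonempty and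
  `ε ≤ G z₀`; hence `G z ≤ G z₀` in both cases.
-/

set_option autoImplicit false

open UpperHalfPlane Filter Topology
open scoped MatrixGroups Modular

namespace Fermat.Agent.S37.Fin

/-- NB: the hypothesis `hpos` is necessary (`G = - ‖petersson Δ Δ‖` is a counterexample without it). -/
theorem exists_max {G : ℍ → ℝ} (hc : Continuous G) (hpos : ∀ z, 0 ≤ G z)
    {Γ : Subgroup SL(2, ℤ)} [Γ.FiniteIndex]
    (hinv : ∀ γ ∈ Γ, ∀ z : ℍ, G (γ • z) = G z)
    (hcusp : ∀ σ : SL(2, ℤ), Tendsto (fun z : ℍ => G (σ • z)) atImInfty (𝓝 0)) :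
    ∃ z₀ : ℍ, ∀ z : ℍ, G z ≤ G z₀ := by
  classical
  by_cases h0 : ∀ z, G z ≤ 0
  · exact ⟨UpperHalfPlane.I, fun z => (h0 z).trans (hpos _)⟩
  push Not at h0
  obtain ⟨z₁, hz₁⟩ := h0
  have : Fintype (SL(2, ℤ) ⧸ Γ) := Subgroup.fintypeQuotientOfFiniteIndex
  let rep : SL(2, ℤ) ⧸ Γ → SL(2, ℤ) := Quotient.out
  let Gq : SL(2, ℤ) ⧸ Γ → ℍ → ℝ := fun q w => G ((rep q)⁻¹ • w)
  have hGq_cont : ∀ q, Continuous (Gq q) := fun q => by
    simp only [Gq, ModularGroup.sl_moeb]
    fun_prop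
  have hkey : ∀ z, ∃ q, ∃ w ∈ 𝒟, G z = Gq q w := by
    intro z
    obtain ⟨g, hg⟩ := ModularGroup.exists_smul_mem_fd z
    refine ⟨(g : SL(2, ℤ) ⧸ Γ), g • z, hg, ?_⟩
    have h1 : (rep (g : SL(2, ℤ) ⧸ Γ))⁻¹ * g ∈ Γ := by
      rw [← QuotientGroup.eq]
      exact QuotientGroup.out_eq' _
    have h2 := hinv _ h1 z
    rw [mul_smul] at h2
    exact h2.symm
  have hev : ∀ᶠ w in atImInfty, ∀ q, Gq q w < G z₁ := by
    rw [Filter.eventually_all]
    intro q
    exact (hcusp (rep q)⁻¹).eventually (gt_mem_nhds hz₁)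
  rw [atImInfty, eventually_comap, eventually_atTop] at hev
  obtain ⟨Y, hY⟩ := hev
  have hDc : IsCompact (ModularGroup.truncatedFundamentalDomain Y) :=
    ModularGroup.isCompact_truncatedFundamentalDomain Y
  obtain ⟨q₁, w₁, hw₁, e₁⟩ := hkey z₁
  have hw₁D : w₁ ∈ ModularGroup.truncatedFundamentalDomain Y := by
    refine ⟨hw₁, ?_⟩
    by_contra hlt
    push Not at hlt
    have := hY _ hlt.le w₁ rfl q₁
    rw [e₁] at this
    exact lt_irrefl _ this
  have hmax : ∀ q, ∃ w ∈ ModularGroup.truncatedFundamentalDomain Y,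
      ∀ w' ∈ ModularGroup.truncatedFundamentalDomain Y, Gq q w' ≤ Gq q w := fun q =>
    hDc.exists_isMaxOn ⟨w₁, hw₁D⟩ (hGq_cont q).continuousOn
  choose wm hwmD hwm using hmax
  obtain ⟨q₀, -, hq₀⟩ := Finset.exists_max_image Finset.univ (fun q => Gq q (wm q))
    ⟨q₁, Finset.mem_univ _⟩
  refine ⟨(rep q₀)⁻¹ • wm q₀, fun z => ?_⟩
  obtain ⟨q, w, hw, e⟩ := hkey z
  have hbig : G z₁ ≤ Gq q₀ (wm q₀) := by
    rw [e₁]
    exact (hwm q₁ w₁ hw₁D).trans (hq₀ q₁ (Finset.mem_univ _))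
  rcases le_total Y w.im with h | h
  · rw [e]
    exact (hY _ h w rfl q).le.trans hbig
  · rw [e]
    exact (hwm q w ⟨hw, h⟩).trans (hq₀ q (Finset.mem_univ _))

end Fermat.Agent.S37.Fin
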