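import Fermat.Agent.S37.Fin.Max

/-!
# S37/Fin, leaf FIN-Pet : `G(z) = im z * ‖h z‖` for a cusp form `h` of weight two on `Γ₀(M)`

SKETCH (about 120 lines; all needed facts are in `Mathlib/NumberTheory/ModularForms/Petersson.lean`, `Bounds.lean`).
`P z := ‖petersson 2 h h z‖ = (im z * ‖h z‖)²` (`UpperHalfPlane.petersson`, `Complex.norm_conj`, `abs_of_pos z.im_pos`).
* `P` is continuous (`by fun_prop`, as in `Bounds.lean`), invariant under `Γ₀(M)` (`SlashInvariantFormClass.norm_petersson_smul`; an element `γ ∈ Gamma0 M` acts through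
  `mapGL ℝ γ`, `Subgroup.mem_map_of_mem`), and `P (σ • z) → 0` for every `σ : SL(2,ℤ)` : copy the proof of `CuspFormClass.petersson_bounded_left`
  (`← UpperHalfPlane.petersson_slash_SL`, `(zero_at_infty <| CuspForm.translate h σ).petersson_isZeroAtImInfty_left`).
* `pet_tendsto` : take square roots (`Real.sqrt` is continuous, `Real.sqrt_sq`), or squeeze.
* `exists_max_form` : `exists_max` for `P` with `Γ = Gamma0 M` (finite index instance), then `pow_le_pow_left`-inverse (`abs_le_of_sq_le_sq'`, `pow_le_pow_iff_left₀`).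
* `tendsto_radial` : `w r = S • u r` with `u r = S⁻¹ • w r`, `(u r : ℂ) = -c r / z₀`, `im (u r) = c r * im z₀ / ‖z₀‖² → ∞`
  (`UpperHalfPlane.modular_S_smul`, `ModularGroup.im_smul_eq_div_normSq` or `UpperHalfPlane.im_inv_neg_coe_pos`); compose `pet_tendsto h S` with
  `tendsto_comap_iff` (`atImInfty = comap im atTop`).
-/

set_option autoImplicit false

open UpperHalfPlane Filter Topology CongruenceSubgroup
open scoped MatrixGroups Modular

namespace Fermat.Agent.S37.Fin

theorem norm_pet (h : ℍ → ℂ) (z : ℍ) : ‖petersson 2 h h z‖ = (z.im * ‖h z‖) ^ 2 := by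
  simp only [petersson, norm_mul, Complex.norm_conj, norm_zpow, Complex.norm_real,
    Real.norm_of_nonneg z.im_pos.le]
  rw [show ((2 : ℤ)) = ((2 : ℕ) : ℤ) from rfl, zpow_natCast]
  ring

theorem pet_eq_sqrt (h : ℍ → ℂ) (z : ℍ) : z.im * ‖h z‖ = Real.sqrt ‖petersson 2 h h z‖ := by
  rw [norm_pet, Real.sqrt_sq (mul_nonneg z.im_pos.le (norm_nonneg _))]

open ConjAct Pointwise Matrix.SpecialLinearGroup in
theorem pet_sq_tendsto {M : ℕ} [NeZero M] (h : CuspForm (Gamma0 M) 2) (σ : SL(2, ℤ)) :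
    Tendsto (fun z : ℍ => ‖petersson 2 h h (σ • z)‖) atImInfty (𝓝 0) := by
  rw [← tendsto_zero_iff_norm_tendsto_zero]
  simp_rw [← UpperHalfPlane.petersson_slash_SL]
  have : ((toConjAct (σ : GL (Fin 2) ℝ)⁻¹) •
      ((Gamma0 M : Subgroup SL(2, ℤ)) : Subgroup (GL (Fin 2) ℝ))).IsArithmetic := by
    simpa [(show Rat.castHom ℝ = algebraMap ℚ ℝ by rfl), map_inv, map_mapGL]
      using! Subgroup.IsArithmetic.conj ((Gamma0 M : Subgroup SL(2, ℤ)) : Subgroup (GL (Fin 2) ℝ))
        (mapGL ℚ σ)⁻¹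
  exact (CuspFormClass.zero_at_infty <| CuspForm.translate h σ).petersson_isZeroAtImInfty_left 2 _
    (ModularForm.translate h σ)

theorem pet_tendsto {M : ℕ} [NeZero M] (h : CuspForm (Gamma0 M) 2) (σ : SL(2, ℤ)) :
    Tendsto (fun z : ℍ => (σ • z).im * ‖h (σ • z)‖) atImInfty (𝓝 0) := by
  simp_rw [pet_eq_sqrt]
  have := (Real.continuous_sqrt.tendsto 0).comp (pet_sq_tendsto h σ)
  rw [Real.sqrt_zero] at this
  exact this

theorem exists_max_form {M : ℕ} [NeZero M] (h : CuspForm (Gamma0 M) 2) :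
    ∃ z₀ : ℍ, ∀ z : ℍ, z.im * ‖h z‖ ≤ z₀.im * ‖h z₀‖ := by
  refine exists_max (G := fun z : ℍ => z.im * ‖h z‖) (Γ := Gamma0 M) ?_ ?_ ?_ (pet_tendsto h)
  · exact continuous_im.mul (CuspFormClass.holo h).continuous.norm
  · exact fun z => mul_nonneg z.im_pos.le (norm_nonneg _)
  · intro γ hγ z
    simp only [pet_eq_sqrt]
    congr 1
    exact SlashInvariantFormClass.norm_petersson_smul (f := h) (f' := h)
      (Subgroup.mem_map_of_mem _ hγ)

theorem tendsto_radial {M : ℕ} [NeZero M] (h : CuspForm (Gamma0 M) 2) (z₀ : ℍ) (c : ℕ → ℝ)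
    (hc : Tendsto c atTop atTop) (w : ℕ → ℍ) (hw : ∀ r, (w r : ℂ) = (z₀ : ℂ) / (c r : ℂ)) :
    Tendsto (fun r => (w r).im * ‖h (w r)‖) atTop (𝓝 0) := by
  let u : ℕ → ℍ := fun r => ModularGroup.S⁻¹ • w r
  have hu : ∀ r, ModularGroup.S • u r = w r := fun r => smul_inv_smul _ _
  have hc0 : ∀ r, c r ≠ 0 := by
    intro r h0
    have h1 := (w r).im_pos
    rw [← UpperHalfPlane.coe_im, hw, h0] at h1
    simp at h1
  have him : ∀ r, (u r).im = c r * (z₀.im / Complex.normSq (z₀ : ℂ)) := by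
    intro r
    have e10 : (ModularGroup.S⁻¹ : SL(2, ℤ)) 1 0 = -1 := by
      rw [Matrix.SpecialLinearGroup.coe_inv, ModularGroup.coe_S, Matrix.adjugate_fin_two]
      simp
    have e11 : (ModularGroup.S⁻¹ : SL(2, ℤ)) 1 1 = 0 := by
      rw [Matrix.SpecialLinearGroup.coe_inv, ModularGroup.coe_S, Matrix.adjugate_fin_two]
      simp
    have h1 : denom (ModularGroup.S⁻¹ : SL(2, ℤ)) (w r) = -(w r : ℂ) := by
      rw [ModularGroup.denom_apply, e10, e11]
      simp
    have hz0 : Complex.normSq (z₀ : ℂ) ≠ 0 := by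
      rw [Ne, Complex.normSq_eq_zero]
      exact ne_zero z₀
    simp only [u]
    rw [ModularGroup.im_smul_eq_div_normSq, h1, Complex.normSq_neg, ← UpperHalfPlane.coe_im, hw,
      Complex.normSq_div, Complex.normSq_ofReal, Complex.div_ofReal_im, UpperHalfPlane.coe_im]
    have := hc0 r
    field_simp
  have hpos : 0 < z₀.im / Complex.normSq (z₀ : ℂ) :=
    div_pos z₀.im_pos (Complex.normSq_pos.2 (ne_zero z₀))
  have hlim : Tendsto u atTop atImInfty := by
    rw [atImInfty, tendsto_comap_iff]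
    have : (im ∘ u) = fun r => c r * (z₀.im / Complex.normSq (z₀ : ℂ)) := funext him
    rw [this]
    exact hc.atTop_mul_const hpos
  have := (pet_tendsto h ModularGroup.S).comp hlim
  simpa only [Function.comp_def, hu] using this

end Fermat.Agent.S37.Fin
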